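import Fermat.Agent.Valence.Bound
import Mathlib.LinearAlgebra.Dimension.Constructions

/-!
# Sturm's bound with any period, and finite dimensionality
-/

set_option autoImplicit false

noncomputable section

namespace FA.Valence

open UpperHalfPlane hiding I
open ModularForm
open scoped MatrixGroups

variable {Γ : Subgroup (GL (Fin 2) ℝ)} {k : ℤ} [Γ.IsArithmetic]

/-- The first `B` coefficients decide as soon as `h k μ / 12 < B`. -/
theorem eq_zero_of_coeff {h : ℝ} (hh : 0 < h) (hΓ : h ∈ Γ.strictPeriods) {B : ℕ}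
    (hB : h * k * (Γ.adjoinNegOne.relIndex 𝒮ℒ : ℝ) / 12 < B) (f : ModularForm Γ k)
    (hf : ∀ i < B, (qExpansion h f).coeff i = 0) : f = 0 := by
  by_contra hne
  have h1 := bound f hne hh hΓ hf ∅ (by simp)
  rw [Finset.sum_empty, zero_add, div_le_iff₀ hh] at h1
  nlinarith

/-- The first coefficients, over `ℝ` for every arithmetic group. -/
def coeffLinearReal {h : ℝ} (hh : 0 < h) (hΓ : h ∈ Γ.strictPeriods) (B : ℕ) :
    ModularForm Γ k →ₗ[ℝ] (Fin B → ℂ) where
  toFun f i := (qExpansion h f).coeff i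
  map_add' f g := funext fun i => by
    rw [FunLike.coe_add, ModularForm.qExpansion_add hh hΓ f g, map_add]
    rfl
  map_smul' r f := funext fun i => by
    rw [show ⇑(r • f) = (r : ℂ) • ⇑f from funext fun z => by simp,
      ModularForm.qExpansion_smul hh hΓ, PowerSeries.coeff_smul]
    simp [Complex.real_smul]

theorem injective_coeffLinearReal {h : ℝ} (hh : 0 < h) (hΓ : h ∈ Γ.strictPeriods) {B : ℕ}
    (hB : h * k * (Γ.adjoinNegOne.relIndex 𝒮ℒ : ℝ) / 12 < B) :
    Function.Injective (coeffLinearReal (k := k) hh hΓ B) :=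
  (injective_iff_map_eq_zero _).2 fun f hf =>
    eq_zero_of_coeff hh hΓ hB f fun i hi => congrFun hf ⟨i, hi⟩

variable [Γ.HasDetOne]

/-- The first coefficients. -/
def coeffLinear {h : ℝ} (hh : 0 < h) (hΓ : h ∈ Γ.strictPeriods) (B : ℕ) :
    ModularForm Γ k →ₗ[ℂ] (Fin B → ℂ) where
  toFun f i := (qExpansion h f).coeff i
  map_add' f g := funext fun i => by
    rw [FunLike.coe_add, ModularForm.qExpansion_add hh hΓ f g, map_add]
    rfl
  map_smul' r f := funext fun i => by
    rw [FunLike.coe_smul, ModularForm.qExpansion_smul hh hΓ, PowerSeries.coeff_smul]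
    rfl

theorem injective_coeffLinear {h : ℝ} (hh : 0 < h) (hΓ : h ∈ Γ.strictPeriods) {B : ℕ}
    (hB : h * k * (Γ.adjoinNegOne.relIndex 𝒮ℒ : ℝ) / 12 < B) :
    Function.Injective (coeffLinear (k := k) hh hΓ B) :=
  (injective_iff_map_eq_zero _).2 fun f hf =>
    eq_zero_of_coeff hh hΓ hB f fun i hi => congrFun hf ⟨i, hi⟩

theorem finrank_le {h : ℝ} (hh : 0 < h) (hΓ : h ∈ Γ.strictPeriods) {B : ℕ}
    (hB : h * k * (Γ.adjoinNegOne.relIndex 𝒮ℒ : ℝ) / 12 < B) :
    Module.finrank ℂ (ModularForm Γ k) ≤ B :=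
  (LinearMap.finrank_le_finrank_of_injective (injective_coeffLinear hh hΓ hB)).trans_eq
    (Module.finrank_fin_fun ℂ)

omit [Γ.HasDetOne] in
theorem width_spec : 0 < Γ.strictWidthInfty ∧ Γ.strictWidthInfty ∈ Γ.strictPeriods :=
  ⟨Γ.strictWidthInfty_pos_iff.2 (by
    rw [Subgroup.IsArithmetic.isCusp_iff_isCusp_SL2Z]
    exact isCusp_SL2Z_iff'.2 ⟨1, by simp⟩), Γ.strictWidthInfty_mem_strictPeriods⟩

theorem finite_modularForm : FiniteDimensional ℂ (ModularForm Γ k) := by
  obtain ⟨hh, hΓ⟩ := width_spec (Γ := Γ)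
  obtain ⟨B, hB⟩ :=
    exists_nat_gt (Γ.strictWidthInfty * k * (Γ.adjoinNegOne.relIndex 𝒮ℒ : ℝ) / 12)
  exact FiniteDimensional.of_injective (coeffLinear hh hΓ B) (injective_coeffLinear hh hΓ hB)

omit [Γ.HasDetOne] in
theorem finite_modularForm_real : FiniteDimensional ℝ (ModularForm Γ k) := by
  obtain ⟨hh, hΓ⟩ := width_spec (Γ := Γ)
  obtain ⟨B, hB⟩ :=
    exists_nat_gt (Γ.strictWidthInfty * k * (Γ.adjoinNegOne.relIndex 𝒮ℒ : ℝ) / 12)
  exact FiniteDimensional.of_injective (coeffLinearReal hh hΓ B)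
    (injective_coeffLinearReal hh hΓ hB)

/-- A cusp form as a modular form. -/
def cuspInclusion : CuspForm Γ k →ₗ[ℂ] ModularForm Γ k where
  toFun f :=
    { toFun := ⇑f
      slash_action_eq' := f.slash_action_eq'
      holo' := f.holo'
      bdd_at_cusps' := fun hc g hg => (f.zero_at_cusps' hc g hg).isBoundedAtImInfty }
  map_add' _ _ := rfl
  map_smul' _ _ := rfl

theorem finite_cuspForm : FiniteDimensional ℂ (CuspForm Γ k) := by
  have := finite_modularForm (Γ := Γ) (k := k)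
  exact FiniteDimensional.of_injective cuspInclusion fun f g h =>
    DFunLike.ext _ _ fun z => DFunLike.congr_fun h z

end FA.Valence

end
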