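import Fermat.Agent.Valence.LevelOne
import Mathlib.NumberTheory.ModularForms.NormTrace
import Mathlib.Analysis.Asymptotics.SpecificAsymptotics

/-!
# The bound for the zeros of a form on an arithmetic group

The norm to level one multiplies the orders; its factors are bounded at `i∞` and the identity
coset contributes `f` itself. Applied to `f ^ 2`, which is invariant under `-1`, this counts the
cosets of `Γ {±1}` only.
-/

set_option autoImplicit false
set_option linter.style.haveILetI false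

noncomputable section

namespace FA.Valence

open UpperHalfPlane hiding I
open Filter Finset ModularForm Asymptotics SlashInvariantForm FA.ModField
open Matrix.SpecialLinearGroup (mapGL)
open FA.ClassRelation (analyticAt_ext)
open scoped Real MatrixGroups Topology Manifold

variable {Γ : Subgroup (GL (Fin 2) ℝ)} {k : ℤ}

/-- Slashing moves the zeros. -/
theorem analyticOrderAt_slash {f : ℍ → ℂ} (hf : MDiff f) (γ : SL(2, ℤ)) (τ : ℍ) :
    analyticOrderAt ((f ∣[k] γ) ∘ ofComplex) (τ : ℂ) =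
      analyticOrderAt (f ∘ ofComplex) ((γ • τ : ℍ) : ℂ) := by
  have hdet : (0 : ℝ) < (γ : GL (Fin 2) ℝ).val.det :=
    (Matrix.SpecialLinearGroup.det_coe
      (Matrix.SpecialLinearGroup.map (Int.castRingHom ℝ) γ)).symm ▸ one_pos
  obtain ⟨G, hG⟩ : ∃ G : ℂ → ℂ,
      G = fun z => ((((γ : GL (Fin 2) ℝ)) • ofComplex z : ℍ) : ℂ) := ⟨_, rfl⟩
  obtain ⟨J, hJ⟩ : ∃ J : ℂ → ℂ, J = fun z => denom (γ : GL (Fin 2) ℝ) z ^ (-k) := ⟨_, rfl⟩
  have hJa : AnalyticAt ℂ J τ := by
    rw [hJ]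
    refine AnalyticAt.zpow ?_ (denom_ne_zero _ τ)
    unfold denom
    fun_prop
  have hGa : AnalyticAt ℂ G τ := hG ▸ τ.analyticAt_smul hdet
  have hfa : AnalyticAt ℂ ((f ∘ ofComplex) ∘ G) τ :=
    (analyticAt_ext hf (γ • τ)).comp_of_eq hGa (by simp only [hG, ofComplex_apply]; rfl)
  rw [analyticOrderAt_congr (g := ((f ∘ ofComplex) ∘ G) * J)
    ((show ∀ᶠ z in 𝓝 (τ : ℂ), 0 < z.im from
      isOpen_upperHalfPlaneSet.mem_nhds τ.im_pos).mono fun z hz => by
      simp only [Function.comp_apply, Pi.mul_apply, hG, hJ, ModularForm.SL_slash_apply,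
        ofComplex_apply, ofComplex_apply_of_im_pos hz]
      rfl),
    analyticOrderAt_mul hfa hJa,
    hJa.analyticOrderAt_eq_zero.2 (by rw [hJ]; exact zpow_ne_zero _ (denom_ne_zero _ τ)),
    add_zero, analyticOrderAt_comp_of_deriv_ne_zero hGa (hG ▸ τ.deriv_smul_ne_zero hdet)]
  congr 1
  simp only [hG, ofComplex_apply]
  rfl

theorem analyticAt_prod_order {ι : Type*} (s : Finset ι) (g : ι → ℂ → ℂ) (z : ℂ)
    (hg : ∀ i ∈ s, AnalyticAt ℂ (g i) z) :
    AnalyticAt ℂ (∏ i ∈ s, g i) z ∧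
      analyticOrderAt (∏ i ∈ s, g i) z = ∑ i ∈ s, analyticOrderAt (g i) z := by
  classical
  induction s using Finset.induction with
  | empty =>
    have h : AnalyticAt ℂ (1 : ℂ → ℂ) z := analyticAt_const
    exact ⟨by simpa using h, by simpa using h.analyticOrderAt_eq_zero.2 (by simp)⟩
  | insert a s ha ih =>
    obtain ⟨h1, h2⟩ := ih fun i hi => hg i (mem_insert_of_mem hi)
    rw [prod_insert ha, sum_insert ha]
    exact ⟨(hg a (mem_insert_self a s)).mul h1,
      by rw [analyticOrderAt_mul (hg a (mem_insert_self a s)) h1, h2]⟩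

variable (f : ModularForm Γ k)

/-- Every translate is a slash by an element of `SL(2, ℤ)`. -/
theorem exists_slash [Γ.IsArithmetic] (c : 𝒮ℒ ⧸ Γ.subgroupOf 𝒮ℒ) :
    ∃ γ : SL(2, ℤ), quotientFunc f c = ⇑f ∣[k] γ := by
  induction c using Quotient.inductionOn with
  | h r =>
    obtain ⟨γ, hγ⟩ := r.2
    refine ⟨γ⁻¹, ?_⟩
    rw [quotientFunc_mk, ← hγ, ← map_inv, ModularForm.SL_slash]
    rfl

theorem quotientFunc_mdiff [Γ.IsArithmetic] (c : 𝒮ℒ ⧸ Γ.subgroupOf 𝒮ℒ) :
    MDiff (quotientFunc f c) := by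
  induction c using Quotient.inductionOn with
  | h r => exact (ModularForm.translate f r.1⁻¹).holo'

theorem slash_isBounded [Γ.IsArithmetic] (γ : SL(2, ℤ)) : IsBoundedAtImInfty (⇑f ∣[k] γ) := by
  have hc : IsCusp (mapGL ℝ γ • OnePoint.infty) Γ :=
    (Subgroup.IsArithmetic.isCusp_iff_isCusp_SL2Z _).2 (isCusp_SL2Z_iff'.2 ⟨γ, rfl⟩)
  rw [ModularForm.SL_slash]
  exact f.bdd_at_cusps' hc (mapGL ℝ γ) rfl

variable {f}

theorem isBigO_of_coeff [Γ.IsArithmetic] {h : ℝ} (hh : 0 < h) (hΓ : h ∈ Γ.strictPeriods) {n : ℕ}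
    (hn : ∀ i < n, (qExpansion h f).coeff i = 0) :
    ⇑f =O[atImInfty] fun z => Real.exp (-2 * π * z.im / h) ^ n := by
  have han := ModularFormClass.analyticAt_cuspFunction_zero f hh hΓ
  have hord : (n : ℕ∞) ≤ analyticOrderAt (cuspFunction h f) 0 :=
    (natCast_le_analyticOrderAt_iff_iteratedDeriv_eq_zero han).2 fun i hi => by
      have := hn i hi
      rw [qExpansion_coeff, mul_eq_zero] at this
      exact this.resolve_left (inv_ne_zero (Nat.cast_ne_zero.2 i.factorial_ne_zero))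
  obtain ⟨g, hg, hev⟩ := (natCast_le_analyticOrderAt han).1 hord
  have hO : cuspFunction h f =O[𝓝 0] fun q : ℂ => ‖q‖ ^ n := by
    have h1 := (isBigO_refl (fun q : ℂ => q ^ n) (𝓝 0)).mul (hg.continuousAt.tendsto.isBigO_one ℂ)
    refine IsBigO.congr' ?_ (hev.mono fun q hq => by rw [hq, sub_zero, smul_eq_mul])
      EventuallyEq.rfl
    refine h1.trans (IsBigO.of_bound 1 (Eventually.of_forall fun q => ?_))
    simp
  refine (hO.comp_tendsto (qParam_tendsto_atImInfty hh)).congr (fun z => ?_) fun z => ?_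
  · exact SlashInvariantFormClass.eq_cuspFunction f z hΓ hh.ne'
  · simp only [Function.comp_apply, Function.Periodic.norm_qParam]
    rfl

/-- The order of a level one form is at least any rate of decay. -/
theorem le_order_of_isBigO {κ : ℕ} (N : ModularForm 𝒮ℒ (κ : ℤ)) (hN : N ≠ 0) {a : ℝ}
    (hO : ⇑N =O[atImInfty] fun z => Real.exp (-(2 * π * a) * z.im)) :
    a ≤ (qExpansion 1 N).order.toNat := by
  obtain ⟨v, hv⟩ : ∃ v, v = (qExpansion 1 N).order.toNat := ⟨_, rfl⟩
  rw [← hv]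
  have hne : qExpansion 1 N ≠ 0 := fun h =>
    hN ((ModularForm.qExpansion_eq_zero_iff one_pos one_mem_strictPeriods_SL N).1 h)
  have han := ModularFormClass.analyticAt_cuspFunction_zero N one_pos one_mem_strictPeriods_SL
  have hord : analyticOrderAt (cuspFunction 1 N) 0 = (v : ℕ∞) := by
    refine (analyticOrderAt_eq_nat_iff_iteratedDeriv_eq_zero han).2 ⟨fun i hi => ?_, fun h0 => ?_⟩
    · have := PowerSeries.coeff_of_lt_order_toNat (φ := qExpansion 1 N) i (hv ▸ hi)
      rw [qExpansion_coeff, mul_eq_zero] at this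
      exact this.resolve_left (inv_ne_zero (Nat.cast_ne_zero.2 i.factorial_ne_zero))
    · refine PowerSeries.coeff_order hne ?_
      rw [← hv, qExpansion_coeff, h0, mul_zero]
  obtain ⟨G, hG, hG0, hev⟩ := han.analyticOrderAt_eq_natCast.1 hord
  by_contra hlt
  push Not at hlt
  have hlim : Tendsto (fun z : ℍ => N z / Function.Periodic.qParam (1 : ℝ) z ^ v) atImInfty
      (𝓝 (G 0)) := by
    have hq : Tendsto (fun z : ℍ => Function.Periodic.qParam (1 : ℝ) z) atImInfty (𝓝 0) :=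
      qParam_tendsto_atImInfty one_pos
    refine (hG.continuousAt.tendsto.comp hq).congr' ((hq.eventually hev).mono fun z hz => ?_)
    rw [SlashInvariantFormClass.eq_cuspFunction N z one_mem_strictPeriods_SL one_ne_zero,
      sub_zero, smul_eq_mul] at hz
    show G _ = N z / _
    rw [hz, mul_div_cancel_left₀ _ (pow_ne_zero _ (Function.Periodic.qParam_ne_zero _))]
  refine hG0 (tendsto_nhds_unique hlim ?_)
  have hO' : (fun z : ℍ => N z / Function.Periodic.qParam (1 : ℝ) z ^ v) =O[atImInfty]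
      fun z => Real.exp (-(2 * π * (a - v)) * z.im) := by
    have h2 : (fun z : ℍ => (Function.Periodic.qParam (1 : ℝ) z ^ v)⁻¹) =O[atImInfty]
        fun z => Real.exp (2 * π * v * z.im) := by
      refine IsBigO.of_bound 1 (Eventually.of_forall fun z => le_of_eq ?_)
      rw [norm_inv, norm_pow, Function.Periodic.norm_qParam, ← Real.exp_nat_mul, ← Real.exp_neg,
        one_mul, Real.norm_of_nonneg (Real.exp_pos _).le]
      congr 1
      simp only [UpperHalfPlane.im]
      ring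
    refine (hO.mul h2).congr (fun z => (div_eq_mul_inv _ _).symm) fun z => ?_
    rw [← Real.exp_add]
    ring_nf
  refine hO'.trans_tendsto (Real.tendsto_exp_atBot.comp ?_)
  exact tendsto_comap.const_mul_atTop_of_neg
    (neg_lt_zero.2 (mul_pos Real.two_pi_pos (sub_pos.2 hlt)))

variable (f)

/-- The bound with all cosets. -/
theorem bound_all [Γ.IsArithmetic] (hf : f ≠ 0) {h : ℝ} (hh : 0 < h) (hΓ : h ∈ Γ.strictPeriods)
    {n : ℕ} (hn : ∀ i < n, (qExpansion h f).coeff i = 0) (S : Finset ℍ)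
    (hS : ∀ z ∈ S, ∀ w ∈ S, ∀ γ : SL(2, ℤ), (γ : GL (Fin 2) ℝ) ∈ Γ → γ • z = w → z = w) :
    ∑ z ∈ S, ((ord f z : ℝ) / weightAt z) + n / h ≤ k * (Γ.relIndex 𝒮ℒ : ℝ) / 12 := by
  classical
  let _ : Fintype (𝒮ℒ ⧸ Γ.subgroupOf 𝒮ℒ) := Fintype.ofFinite _
  have hN0 : ModularForm.norm 𝒮ℒ f ≠ 0 := ModularForm.norm_ne_zero 𝒮ℒ (by simpa using hf)
  have hrel : Γ.relIndex 𝒮ℒ = Nat.card (𝒮ℒ ⧸ Γ.subgroupOf 𝒮ℒ) := rfl
  have hk0 : 0 ≤ k * (Nat.card (𝒮ℒ ⧸ Γ.subgroupOf 𝒮ℒ) : ℤ) := by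
    by_contra hneg
    push Not at hneg
    exact hN0 (DFunLike.coe_injective (by
      rw [ModularFormClass.levelOne_neg_weight_eq_zero hneg]; rfl))
  obtain ⟨κ, hκ⟩ := Int.eq_ofNat_of_zero_le hk0
  obtain ⟨N, hNval⟩ : ∃ N : ModularForm 𝒮ℒ (κ : ℤ),
      ∀ z, N z = ∏ c : 𝒮ℒ ⧸ Γ.subgroupOf 𝒮ℒ, quotientFunc f c z := by
    refine ⟨ModularForm.mcast hκ (ModularForm.norm 𝒮ℒ f), fun z => ?_⟩
    rw [ModularForm.mcast_apply, ModularForm.coe_norm, Finset.prod_apply]
  have hNne : N ≠ 0 := fun h0 => hN0 (DFunLike.ext _ _ fun z => by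
    have := hNval z
    rw [h0] at this
    rw [ModularForm.coe_norm, Finset.prod_apply]
    convert this.symm)
  obtain ⟨hfin, hval⟩ := valence_nat N hNne
  -- the orders multiply
  have hordN : ∀ τ : ℍ, ord N τ = ∑ c : 𝒮ℒ ⧸ Γ.subgroupOf 𝒮ℒ, ord (quotientFunc f c) τ := by
    intro τ
    have hc : ∀ c ∈ (univ : Finset (𝒮ℒ ⧸ Γ.subgroupOf 𝒮ℒ)),
        AnalyticAt ℂ (quotientFunc f c ∘ ofComplex) τ := fun c _ =>
      analyticAt_ext (quotientFunc_mdiff f c) τ
    have e := (analyticAt_prod_order univ _ (τ : ℂ) hc).2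
    rw [show (∏ c : 𝒮ℒ ⧸ Γ.subgroupOf 𝒮ℒ, quotientFunc f c ∘ ofComplex) = ⇑N ∘ ofComplex from
      funext fun z => by simp [hNval, Finset.prod_apply]] at e
    rw [ord, analyticOrderNatAt, e]
    refine ENat.toNat_sum fun c _ => order_ne_top _ (quotientFunc_mdiff f c) (fun h0 => hNne ?_) τ
    exact DFunLike.ext _ _ fun z => by
      rw [hNval]
      exact Finset.prod_eq_zero (Finset.mem_univ c) (by rw [h0]; rfl)
  -- a point and its coset
  have hpt : ∀ z : ℍ, ∃ γ : SL(2, ℤ),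
      γ • (Quotient.mk (MulAction.orbitRel SL(2, ℤ) ℍ) z).out = z := fun z => by
    obtain ⟨g, hg⟩ := MulAction.orbitRel_apply.mp
      (Quotient.exact (Quotient.out_eq (Quotient.mk (MulAction.orbitRel SL(2, ℤ) ℍ) z)).symm)
    exact ⟨g, hg⟩
  choose γ hγ using hpt
  obtain ⟨cst, hcst⟩ : ∃ cst : ℍ → 𝒮ℒ ⧸ Γ.subgroupOf 𝒮ℒ,
      cst = fun z => ⟦(⟨mapGL ℝ (γ z)⁻¹, ⟨(γ z)⁻¹, rfl⟩⟩ : 𝒮ℒ)⟧ := ⟨_, rfl⟩
  have hordf : ∀ z, ord f z =
      ord (quotientFunc f (cst z)) (Quotient.mk (MulAction.orbitRel SL(2, ℤ) ℍ) z).out :=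
      fun z => by
    have e : quotientFunc f (cst z) = ⇑f ∣[k] γ z := by
      simp only [hcst]
      rw [quotientFunc_mk]
      show ⇑f ∣[k] (mapGL ℝ (γ z)⁻¹)⁻¹ = _
      rw [map_inv, inv_inv, ModularForm.SL_slash]
      rfl
    rw [ord, ord, analyticOrderNatAt, analyticOrderNatAt, e,
      analyticOrderAt_slash (ModularFormClass.holo f), hγ]
  -- the finite part
  have hpart : ∑ z ∈ S, ((ord f z : ℝ) / weightAt z) ≤
      ((∑ᶠ q, orbitOrd N q : ℚ) : ℝ) := by
    rw [finsum_eq_sum_of_support_subset _ (s := hfin.toFinset ∪ S.image (Quotient.mk _))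
      (by simp), Rat.cast_sum,
      ← sum_fiberwise_of_maps_to (g := Quotient.mk (MulAction.orbitRel SL(2, ℤ) ℍ))
        (t := hfin.toFinset ∪ S.image (Quotient.mk _))
        (fun z hz => mem_union_right _ (mem_image_of_mem _ hz))]
    refine sum_le_sum fun q _ => ?_
    rw [orbitOrd, Rat.cast_div, Rat.cast_natCast, Rat.cast_natCast, hordN, Nat.cast_sum,
      sum_div]
    refine le_of_eq_of_le (sum_congr rfl fun z hz => ?_) (?_ :
      ∑ z ∈ S.filter (fun z => Quotient.mk (MulAction.orbitRel SL(2, ℤ) ℍ) z = q),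
        (ord (quotientFunc f (cst z)) q.out : ℝ) / weightAt q.out ≤ _)
    · obtain ⟨-, rfl⟩ := Finset.mem_filter.1 hz
      have e := weightAt_smul (γ z) (Quotient.mk (MulAction.orbitRel SL(2, ℤ) ℍ) z).out
      rw [hγ z] at e
      rw [hordf z, e]
    · refine le_of_eq_of_le (sum_image (g := cst) (f := fun c =>
        (ord (quotientFunc f c) q.out : ℝ) / weightAt q.out) ?_).symm
        (sum_le_sum_of_subset_of_nonneg (subset_univ _) fun c _ _ => by positivity)
      intro z hz w hw hzw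
      obtain ⟨hz, hzq⟩ := Finset.mem_filter.1 hz
      obtain ⟨hw, hwq⟩ := Finset.mem_filter.1 hw
      rw [hcst] at hzw
      have hmem := QuotientGroup.eq.1 hzw
      rw [Subgroup.mem_subgroupOf] at hmem
      simp only [Subgroup.coe_mul, InvMemClass.coe_inv, ← map_inv, inv_inv, ← map_mul] at hmem
      exact (hS w hw z hz (γ z * (γ w)⁻¹) hmem (by
        rw [mul_smul]
        conv_lhs => arg 2; arg 2; rw [← hγ w, hwq]
        rw [inv_smul_smul, ← hzq, hγ])).symm
  -- infinity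
  have hO : ⇑N =O[atImInfty] fun z => Real.exp (-(2 * π * (n / h)) * z.im) := by
    have e1 : quotientFunc f (⟦1⟧ : 𝒮ℒ ⧸ Γ.subgroupOf 𝒮ℒ) = ⇑f := by
      rw [quotientFunc_mk]; simp
    obtain ⟨c₁, hc₁⟩ : ∃ c₁ : 𝒮ℒ ⧸ Γ.subgroupOf 𝒮ℒ, c₁ = ⟦1⟧ := ⟨_, rfl⟩
    have hrest : (fun z => ∏ c ∈ univ.erase c₁, quotientFunc f c z) =O[atImInfty]
        fun z : ℍ => ∏ c ∈ univ.erase c₁, (1 : ℝ) := IsBigO.finsetProd fun c _ => by
      obtain ⟨g, hg⟩ := exists_slash f c
      rw [hg]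
      exact slash_isBounded f g
    refine ((isBigO_of_coeff hh hΓ hn).mul hrest).congr (fun z => ?_) fun z => ?_
    · rw [hNval, ← mul_prod_erase univ _ (mem_univ c₁), hc₁, e1]
    · rw [prod_const_one, mul_one, ← Real.exp_nat_mul]
      ring_nf
  have h1 := le_order_of_isBigO N hNne hO
  have h2 : ((∑ᶠ q, orbitOrd N q : ℚ) : ℝ) + (qExpansion 1 N).order.toNat = (κ : ℝ) / 12 := by
    have := congrArg (fun x : ℚ => (x : ℝ)) hval
    push_cast at this
    exact this
  have h3 : (k : ℝ) * (Γ.relIndex 𝒮ℒ : ℝ) = (κ : ℝ) := by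
    rw [hrel]; exact_mod_cast hκ
  linarith

theorem sq_slash_neg_one (g : ℍ → ℂ) : (g * g) ∣[k + k] (-1 : GL (Fin 2) ℝ) = g * g := by
  funext z
  rw [ModularForm.slash_def]
  have hdet : (-1 : GL (Fin 2) ℝ).det.val = 1 := by simp [Matrix.det_fin_two]
  simp only [neg_smul, one_smul, denom_neg, denom_one, σ, hdet, zero_lt_one, if_true,
    abs_one, Complex.ofReal_one, one_zpow, mul_one]
  rw [(show Even (-(k + k)) from ⟨-k, by ring⟩).neg_one_zpow, mul_one]
  rfl

/-- `f ^ 2` on `Γ {±1}`. -/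
def square [Γ.IsArithmetic] : ModularForm Γ.adjoinNegOne (k + k) where
  toFun := ⇑f * ⇑f
  slash_action_eq' g hg := by
    rcases hg with hg | hg
    · exact (f.mul f).slash_action_eq' g hg
    · rw [show g = -1 * -g by simp, SlashAction.slash_mul, sq_slash_neg_one]
      exact (f.mul f).slash_action_eq' _ hg
  holo' := (f.mul f).holo'
  bdd_at_cusps' hc := (f.mul f).bdd_at_cusps' (by
    rw [Subgroup.IsArithmetic.isCusp_iff_isCusp_SL2Z] at hc ⊢
    exact hc)

theorem neg_smul_point (γ : SL(2, ℤ)) (z : ℍ) : (-γ) • z = γ • z := by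
  ext
  simp

/-- **The valence bound**: pairwise inequivalent zeros and the order at `i∞`. -/
theorem bound [Γ.IsArithmetic] (hf : f ≠ 0) {h : ℝ} (hh : 0 < h) (hΓ : h ∈ Γ.strictPeriods)
    {n : ℕ} (hn : ∀ i < n, (qExpansion h f).coeff i = 0) (S : Finset ℍ)
    (hS : ∀ z ∈ S, ∀ w ∈ S, ∀ γ : SL(2, ℤ), (γ : GL (Fin 2) ℝ) ∈ Γ → γ • z = w → z = w) :
    ∑ z ∈ S, ((ord f z : ℝ) / weightAt z) + n / h ≤
      k * (Γ.adjoinNegOne.relIndex 𝒮ℒ : ℝ) / 12 := by
  have hfne : (⇑f : ℍ → ℂ) ≠ 0 := by simpa using hf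
  have hg : square f ≠ 0 := fun h0 => hfne (funext fun z => by
    have := DFunLike.congr_fun h0 z
    change f z * f z = 0 at this
    exact mul_self_eq_zero.1 this)
  have hp : h ∈ Γ.adjoinNegOne.strictPeriods := by
    rw [Subgroup.mem_strictPeriods_iff] at hΓ ⊢
    exact Γ.le_adjoinNegOne hΓ
  have hq : qExpansion h (square f) = qExpansion h f * qExpansion h f :=
    ModularForm.qExpansion_mul_coe hh hΓ f f
  have hn' : ∀ i < n + n, (qExpansion h (square f)).coeff i = 0 := fun i hi => by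
    rw [hq, PowerSeries.coeff_mul]
    refine sum_eq_zero fun p hp => ?_
    rw [Finset.HasAntidiagonal.mem_antidiagonal] at hp
    rcases lt_or_ge p.1 n with h1 | h1
    · rw [hn _ h1, zero_mul]
    · rw [hn p.2 (by omega), mul_zero]
  have hord : ∀ z, ord (square f) z = ord f z + ord f z := fun z => by
    have hne := order_ne_top _ (ModularFormClass.holo f) hfne z
    exact analyticOrderNatAt_mul (analyticAt_ext (ModularFormClass.holo f) z)
      (analyticAt_ext (ModularFormClass.holo f) z) hne hne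
  have := bound_all (square f) hg hh hp hn' S fun z hz w hw γ hγ e => by
    rcases hγ with hγ | hγ
    · exact hS z hz w hw γ hγ e
    · refine hS z hz w hw (-γ) ?_ (by rw [neg_smul_point, e])
      convert hγ using 1
      ext
      simp
  simp only [hord, Nat.cast_add, add_div, sum_add_distrib] at this
  push_cast at this
  linarith

end FA.Valence

end
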