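import Fermat.Agent.Tau.DiagonalMultiplicity
import Fermat.Agent.ModField.Igusa.LevelP
import Mathlib.NumberTheory.ModularForms.LevelOne.DimensionFormula
import Mathlib.Algebra.Order.BigOperators.Group.Finset

/-!
# The valence formula of level one

`f ^ 12 / Δ ^ k = P (j)` for a polynomial of degree `k - 12 v`, and `j - j (τ)` vanishes at `τ` to
the order `w (τ)`; the orbits correspond to the complex numbers under `j`.
-/

set_option autoImplicit false
set_option linter.style.haveILetI false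

noncomputable section

namespace FA.Valence

open UpperHalfPlane hiding I
open Filter Finset ModularForm EisensteinSeries FA.ModField FA.ClassRelation FA.JInj
open HahnSeries (ofPowerSeries)
open scoped MatrixGroups Topology Manifold

/-- The order of vanishing at a point of the upper half plane. -/
def ord (f : ℍ → ℂ) (τ : ℍ) : ℕ := analyticOrderNatAt (f ∘ ofComplex) (τ : ℂ)

/-- `3` on the orbit of `ρ`, `2` on the orbit of `i`, `1` elsewhere. -/
def weightAt (τ : ℍ) : ℕ := if E₄ τ = 0 then 3 else if E₆ τ = 0 then 2 else 1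

theorem weightAt_pos (τ : ℍ) : 0 < weightAt τ := by
  unfold weightAt; split_ifs <;> norm_num

theorem order_sub (τ : ℍ) :
    analyticOrderAt (fun z => jExt z - jfun τ) (τ : ℂ) = weightAt τ := by
  obtain ⟨e, he, hord⟩ := exists_jOrder τ
  have hev : ∀ᶠ z in 𝓝 (τ : ℂ), 0 < z.im := isOpen_upperHalfPlaneSet.mem_nhds τ.im_pos
  have hD : AnalyticAt ℂ ((fun z => (ModularForm.discriminant z)⁻¹) ∘ ofComplex) τ :=
    analyticAt_ext mdiff_inv_discriminant τ
  have hD0 : analyticOrderAt ((fun z => (ModularForm.discriminant z)⁻¹) ∘ ofComplex) (τ : ℂ) =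
      0 := by
    rw [hD.analyticOrderAt_eq_zero]
    simp [ModularForm.discriminant_ne_zero]
  have key : ∀ (g : ℍ → ℂ) (p : ℕ), p ≠ 0 → MDiff g →
      (∀ z : ℍ, jfun z - jfun τ = g z ^ p * (ModularForm.discriminant z)⁻¹) → p ∣ e := by
    intro g p hp hg hz
    have hga : AnalyticAt ℂ (g ∘ ofComplex) τ := analyticAt_ext hg τ
    rw [analyticOrderAt_congr
      (g := (g ∘ ofComplex) ^ p * ((fun z => (ModularForm.discriminant z)⁻¹) ∘ ofComplex))
      (hev.mono fun z hz' => by
        simp only [jExt, Pi.mul_apply, Pi.pow_apply, Function.comp_apply,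
          ofComplex_apply_of_im_pos hz', hz]),
      analyticOrderAt_mul (hga.pow p) hD, analyticOrderAt_pow hga, hD0, add_zero] at hord
    cases ha : analyticOrderAt (g ∘ ofComplex) (τ : ℂ) with
    | top =>
      rw [ha, nsmul_eq_mul, ENat.mul_top (Nat.cast_ne_zero.2 hp)] at hord
      simp at hord
    | coe a =>
      rw [ha, nsmul_eq_mul] at hord
      norm_cast at hord
      exact ⟨a, hord.symm⟩
  rw [hord, Nat.cast_inj, weightAt]
  by_cases h4 : E₄ τ = 0
  · have hj : jfun τ = 0 := by simp [jfun, h4]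
    have h3 := key E₄ 3 three_ne_zero E₄.holo' fun z => by rw [hj, sub_zero, jfun, div_eq_mul_inv]
    rw [if_pos h4]
    rcases he with rfl | ⟨h, -⟩ | ⟨-, rfl⟩
    · omega
    · rw [hj] at h; norm_num at h
    · rfl
  rw [if_neg h4]
  by_cases h6 : E₆ τ = 0
  · have hj : jfun τ = 1728 := by
      have := jfun_sub_1728 τ
      rw [h6, zero_pow two_ne_zero, zero_div, sub_eq_zero] at this
      exact this
    have h2 := key E₆ 2 two_ne_zero E₆.holo' fun z => by rw [hj, jfun_sub_1728, div_eq_mul_inv]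
    rw [if_pos h6]
    rcases he with rfl | ⟨-, rfl⟩ | ⟨h, -⟩
    · omega
    · rfl
    · rw [hj] at h; norm_num at h
  rw [if_neg h6]
  rcases he with rfl | ⟨h, -⟩ | ⟨h, -⟩
  · rfl
  · refine absurd ?_ h6
    have := jfun_sub_1728 τ
    rw [h, sub_self, eq_comm, div_eq_zero_iff,
      or_iff_left (ModularForm.discriminant_ne_zero τ), pow_eq_zero_iff two_ne_zero] at this
    exact this
  · refine absurd ?_ h4
    rw [jfun, div_eq_zero_iff, or_iff_left (ModularForm.discriminant_ne_zero τ),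
      pow_eq_zero_iff three_ne_zero] at h
    exact h

theorem weightAt_smul (g : SL(2, ℤ)) (τ : ℍ) : weightAt (g • τ) = weightAt τ := by
  have h4 : E₄ (g • τ) = 0 ↔ E₄ τ = 0 := by
    simp only [E4_eq_zero_iff]
    exact ⟨fun ⟨a, ha⟩ => ⟨g⁻¹ * a, by rw [mul_smul, ha, inv_smul_smul]⟩,
      fun ⟨a, ha⟩ => ⟨g * a, by rw [mul_smul, ha]⟩⟩
  have h6 : E₆ (g • τ) = 0 ↔ E₆ τ = 0 := by
    simp only [E6_eq_zero_iff]
    exact ⟨fun ⟨a, ha⟩ => ⟨g⁻¹ * a, by rw [mul_smul, ha, inv_smul_smul]⟩,
      fun ⟨a, ha⟩ => ⟨g * a, by rw [mul_smul, ha]⟩⟩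
  simp only [weightAt, h4, h6]

theorem order_comp (P : Polynomial ℂ) (hP : P ≠ 0) (τ : ℍ) :
    analyticOrderAt (fun z => P.eval (jExt z)) (τ : ℂ) =
      ((P.rootMultiplicity (jfun τ) * weightAt τ : ℕ) : ℕ∞) := by
  obtain ⟨R, hR, hR0⟩ := Polynomial.exists_eq_pow_rootMultiplicity_mul_and_not_dvd P hP (jfun τ)
  rw [Polynomial.dvd_iff_isRoot] at hR0
  have ha : AnalyticAt ℂ (fun z => jExt z - jfun τ) τ := (analyticAt_jExt τ).sub analyticAt_const
  have hb : AnalyticAt ℂ (fun z => R.eval (jExt z)) τ :=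
    (AnalyticOnNhd.eval_polynomial R _ (Set.mem_univ _)).comp (analyticAt_jExt τ)
  generalize hm : P.rootMultiplicity (jfun τ) = m at hR ⊢
  rw [show (fun z => P.eval (jExt z)) =
      (fun z => jExt z - jfun τ) ^ m * fun z => R.eval (jExt z) from
    funext fun z => by simp [hR], analyticOrderAt_mul (ha.pow m) hb, analyticOrderAt_pow ha,
    order_sub, hb.analyticOrderAt_eq_zero.2 (by simpa [jExt] using hR0), add_zero, nsmul_eq_mul,
    Nat.cast_mul]

variable {κ : ℕ}

/-- `f ^ 12 = Δ ^ k P (j)` with `deg P + 12 v = k`. -/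
theorem exists_polynomial (f : ModularForm 𝒮ℒ (κ : ℤ)) (hf : f ≠ 0) :
    ∃ P : Polynomial ℂ, P ≠ 0 ∧ P.natDegree + 12 * (qExpansion 1 f).order.toNat = κ ∧
      ∀ z, f z ^ 12 = ModularForm.discriminant z ^ κ * P.eval (jfun z) := by
  obtain ⟨L, hL⟩ : ∃ L, L = ofPowerSeries ℤ ℂ (qExpansion 1 f) := ⟨_, rfl⟩
  obtain ⟨v, hv⟩ : ∃ v, v = (qExpansion 1 f).order.toNat := ⟨_, rfl⟩
  have hqne : qExpansion 1 f ≠ 0 := fun h =>
    hf ((ModularForm.qExpansion_eq_zero_iff one_pos one_mem_strictPeriods_SL f).1 h)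
  have hexp : HasExp (qp 1) f L := hL ▸ hasExp_ofPowerSeries fun z => by
    have := UpperHalfPlane.hasSum_qExpansion one_pos
      (SlashInvariantFormClass.periodic_comp_ofComplex f one_mem_strictPeriods_SL)
      (ModularFormClass.holo f) (ModularFormClass.bdd_at_infty f) z
    simpa [qp] using this
  have hLv : L ≠ 0 ∧ L.order = v := by
    have hne : L.coeff (v : ℤ) ≠ 0 := by
      rw [hL, HahnSeries.ofPowerSeries_apply_coeff, hv]
      exact PowerSeries.coeff_order hqne
    have h0 : L ≠ 0 := fun h => hne (by simp [h])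
    refine ⟨h0, le_antisymm (HahnSeries.order_le_of_coeff_ne_zero hne)
      ((ordGE_iff_le_order h0).1 fun i hi => ?_)⟩
    rcases lt_or_ge i 0 with hi0 | hi0
    · rw [hL]; exact ModularCurve.ofPowerSeries_coeff_of_neg _ hi0
    · lift i to ℕ using hi0
      rw [hL, HahnSeries.ofPowerSeries_apply_coeff]
      exact PowerSeries.coeff_of_lt_order_toNat _ (by rw [← hv]; omega)
  have hd : dinvq ℂ ≠ 0 ∧ (dinvq ℂ).order = -1 := by
    have h0 : dinvq ℂ ≠ 0 := fun h => by simpa [h] using (dinvq_coeff (R := ℂ)).2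
    exact ⟨h0, le_antisymm (HahnSeries.order_le_of_coeff_ne_zero (by rw [dinvq_coeff.2]; simp))
      ((ordGE_iff_le_order h0).1 dinvq_coeff.1)⟩
  obtain ⟨F, hF⟩ : ∃ F : ℍ → ℂ,
      F = fun z => f z ^ 12 * (ModularForm.discriminant z)⁻¹ ^ κ := ⟨_, rfl⟩
  have hFexp : HasExp (qp 1) F (L ^ 12 * dinvq ℂ ^ κ) := hF ▸
    (hexp.pow (qp_ne_zero 1) 12).mul (qp_ne_zero 1) (hasExp_inv_discriminant.pow (qp_ne_zero 1) κ)
  have hinv : ∀ (g : SL(2, ℤ)) z, F (g • z) = F z := fun g z => by
    have hj : denom g z ≠ 0 := denom_ne_zero _ _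
    have h : f (g • z) = denom g z ^ κ * f z := by
      have := SlashInvariantForm.slash_action_eqn'' f (γ := (g : GL (Fin 2) ℝ))
        (show (g : GL (Fin 2) ℝ) ∈ (𝒮ℒ : Subgroup (GL (Fin 2) ℝ)) from ⟨g, rfl⟩) z
      simpa using this
    simp only [hF, h, discriminant_smul, mul_inv, mul_pow, inv_pow, ← pow_mul, mul_comm κ 12]
    field_simp [ModularForm.discriminant_ne_zero z]
    rw [pow_mul]
    ring
  obtain ⟨P, hP⟩ := exists_polynomial_of_invariant hinv
    (hF ▸ ((ModularFormClass.holo f).pow 12).mul (mdiff_inv_discriminant.pow κ)) hFexp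
  have hmain : ∀ z, f z ^ 12 = ModularForm.discriminant z ^ κ * P.eval (jfun z) := fun z => by
    rw [← congrFun hP z]
    simp only [hF]
    rw [inv_pow, mul_left_comm,
      mul_inv_cancel₀ (pow_ne_zero _ (ModularForm.discriminant_ne_zero z)), mul_one]
  have hP0 : P ≠ 0 := fun h => hf (DFunLike.ext _ _ fun z => by
    have := hmain z
    rw [h, Polynomial.eval_zero, mul_zero] at this
    simpa using this)
  refine ⟨P, hP0, ?_, hmain⟩
  rw [← hv]
  -- compare the expansions
  obtain ⟨J, hJ⟩ : ∃ J, J = ∑ i ∈ range (P.natDegree + 1),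
      HahnSeries.C (P.coeff i) * ModularCurve.jqModC ℂ ^ i := ⟨_, rfl⟩
  have hJexp : HasExp (qp 1) F J := by
    rw [hP, hJ]
    refine (hasExp_sum _ fun i _ => (hasExp_C (P.coeff i)).mul (qp_ne_zero 1)
      (hasExp_jfun.pow (qp_ne_zero 1) i)).congr (funext fun z => ?_)
    simp [Polynomial.eval_eq_sum_range]
  have heq : J = L ^ 12 * dinvq ℂ ^ κ := hJexp.unique (covers_qp 1) hFexp
  have hlead : J.coeff (-(P.natDegree : ℤ)) = P.leadingCoeff := by
    rw [hJ, HahnSeries.coeff_sum, sum_eq_single P.natDegree (fun i hi hne => ?_) (by simp)]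
    · rw [HahnSeries.C_apply, HahnSeries.coeff_single_zero_mul, jqModC_pow_coeff, mul_one,
        Polynomial.leadingCoeff]
    · rw [HahnSeries.C_apply, HahnSeries.coeff_single_zero_mul,
        ((ordGE_jqModC (R := ℂ)).pow i) _ (by rw [Finset.mem_range] at hi; omega), mul_zero]
  have hne : J.coeff (-(P.natDegree : ℤ)) ≠ 0 := hlead ▸ Polynomial.leadingCoeff_ne_zero.2 hP0
  have hJ0 : J ≠ 0 := fun h => hne (by simp [h])
  have hord : J.order = -(P.natDegree : ℤ) := by
    refine le_antisymm (HahnSeries.order_le_of_coeff_ne_zero hne)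
      ((ordGE_iff_le_order hJ0).1 fun i hi => ?_)
    rw [hJ, HahnSeries.coeff_sum]
    refine sum_eq_zero fun j hj => ?_
    rw [HahnSeries.C_apply, HahnSeries.coeff_single_zero_mul,
      ((ordGE_jqModC (R := ℂ)).pow j) _ (by rw [Finset.mem_range] at hj; omega), mul_zero]
  rw [heq, HahnSeries.order_mul (pow_ne_zero _ hLv.1) (pow_ne_zero _ hd.1),
    HahnSeries.order_pow, HahnSeries.order_pow, hLv.2, hd.2] at hord
  simp only [nsmul_eq_mul] at hord
  omega

/-- The orders are the root multiplicities. -/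
theorem twelve_mul_ord (f : ModularForm 𝒮ℒ (κ : ℤ)) {P : Polynomial ℂ} (hP : P ≠ 0)
    (h : ∀ z, f z ^ 12 = ModularForm.discriminant z ^ κ * P.eval (jfun z)) (τ : ℍ) :
    12 * ord f τ = P.rootMultiplicity (jfun τ) * weightAt τ := by
  have hfa : AnalyticAt ℂ (f ∘ ofComplex) τ := analyticAt_ext (ModularFormClass.holo f) τ
  have hDa : AnalyticAt ℂ (ModularForm.discriminant ∘ ofComplex) τ :=
    analyticAt_ext CuspForm.discriminant.holo' τ
  have hPa : AnalyticAt ℂ (fun z => P.eval (jExt z)) τ :=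
    (AnalyticOnNhd.eval_polynomial P _ (Set.mem_univ _)).comp (analyticAt_jExt τ)
  have hev : ∀ᶠ z in 𝓝 (τ : ℂ), 0 < z.im := isOpen_upperHalfPlaneSet.mem_nhds τ.im_pos
  have e : analyticOrderAt ((f ∘ ofComplex) ^ 12) (τ : ℂ) =
      ((P.rootMultiplicity (jfun τ) * weightAt τ : ℕ) : ℕ∞) := by
    rw [analyticOrderAt_congr (g := (ModularForm.discriminant ∘ ofComplex) ^ κ *
        fun z => P.eval (jExt z)) (hev.mono fun z hz => by
        simp only [Pi.mul_apply, Pi.pow_apply, Function.comp_apply, jExt,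
          ofComplex_apply_of_im_pos hz, h]),
      analyticOrderAt_mul (hDa.pow κ) hPa, analyticOrderAt_pow hDa,
      hDa.analyticOrderAt_eq_zero.2 (by simp [ModularForm.discriminant_ne_zero]), smul_zero,
      zero_add, order_comp P hP]
  have := analyticOrderNatAt_pow hfa 12
  rw [analyticOrderNatAt, e, ENat.toNat_natCast, smul_eq_mul] at this
  exact this.symm

/-- A form does not vanish to infinite order. -/
theorem order_ne_top (f : ℍ → ℂ) (hf : MDiff f) (h0 : f ≠ 0) (τ : ℍ) :
    analyticOrderAt (f ∘ ofComplex) (τ : ℂ) ≠ ⊤ := fun h => h0 <| funext fun z => by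
  rw [analyticOrderAt_eq_top] at h
  have := ((UpperHalfPlane.mdifferentiable_iff.1 hf).analyticOnNhd
      isOpen_upperHalfPlaneSet).eqOn_zero_of_preconnected_of_eventuallyEq_zero
    (convex_halfSpace_im_gt 0).isPreconnected τ.im_pos h z.im_pos
  simpa using this

theorem finsum_rootMultiplicity (P : Polynomial ℂ) (hP : P ≠ 0) :
    (Function.support fun c => (P.rootMultiplicity c : ℚ)).Finite ∧
      ∑ᶠ c, (P.rootMultiplicity c : ℚ) = P.natDegree := by
  classical
  have hsub : (Function.support fun c => (P.rootMultiplicity c : ℚ)) ⊆ ↑P.roots.toFinset := by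
    intro c hc
    simp only [Function.mem_support, ne_eq, Nat.cast_eq_zero] at hc
    rw [Finset.mem_coe, Multiset.mem_toFinset, Polynomial.mem_roots hP]
    exact (Polynomial.rootMultiplicity_pos hP).1 (Nat.pos_of_ne_zero hc)
  refine ⟨(Finset.finite_toSet _).subset hsub, ?_⟩
  rw [finsum_eq_sum_of_support_subset _ hsub, ← Nat.cast_sum, Nat.cast_inj,
    ← (IsAlgClosed.splits P).natDegree_eq_card_roots.symm, ← Multiset.toFinset_sum_count_eq]
  exact sum_congr rfl fun c _ => (Polynomial.count_roots P).symm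

/-- The representatives of the orbits, weighted. -/
def orbitOrd (f : ℍ → ℂ) (q : MulAction.orbitRel.Quotient SL(2, ℤ) ℍ) : ℚ :=
  (ord f q.out : ℚ) / weightAt q.out

theorem orbitEquiv_apply (q : MulAction.orbitRel.Quotient SL(2, ℤ) ℍ) :
    orbitEquiv q = jfun q.out := by
  conv_lhs => rw [← Quotient.out_eq q]
  rfl

/-- **The valence formula.** -/
theorem valence_nat (f : ModularForm 𝒮ℒ (κ : ℤ)) (hf : f ≠ 0) :
    (Function.support (orbitOrd f)).Finite ∧
      ∑ᶠ q, orbitOrd f q + (qExpansion 1 f).order.toNat = (κ : ℚ) / 12 := by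
  obtain ⟨P, hP, hdeg, h⟩ := exists_polynomial f hf
  have hq : orbitOrd f = fun q => (P.rootMultiplicity (orbitEquiv q) : ℚ) / 12 := funext fun q => by
    have hw : (weightAt q.out : ℚ) ≠ 0 := Nat.cast_ne_zero.2 (weightAt_pos _).ne'
    rw [orbitOrd, orbitEquiv_apply, div_eq_div_iff hw (by norm_num)]
    exact_mod_cast (mul_comm _ _).trans (twelve_mul_ord f hP h q.out)
  obtain ⟨hfin, hsum⟩ := finsum_rootMultiplicity P hP
  refine ⟨?_, ?_⟩
  · refine (hfin.preimage orbitEquiv.injective.injOn).subset fun q hq' => ?_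
    rw [hq] at hq'
    simp only [Function.mem_support, ne_eq, div_eq_zero_iff] at hq'
    exact fun h0 => hq' (Or.inl h0)
  · rw [hq, finsum_comp_equiv orbitEquiv (f := fun c => (P.rootMultiplicity c : ℚ) / 12),
      finsum_congr fun c => div_eq_mul_inv _ _, ← finsum_mul, hsum]
    have : (P.natDegree : ℚ) + 12 * ((qExpansion 1 f).order.toNat : ℚ) = κ := by exact_mod_cast hdeg
    linear_combination this / 12

end FA.Valence

end
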